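import Fermat.Agent.S36.Mod3.Top

/-!
# S59 moonshot, cell (C) LO-SQ, leaf CTX — core (helper125)

`leafCtxCore125`: EVERY system of objects `Mod3.Objs` (not only the one produced by `LeafObj`)
carries the three-component context `Eng.TripleCtx`.  Pure assembly of the MOD3 leaves on main
(all of them are stated for all `Mod3.Objs`): replay of `Mod3.model3_of_leaves` without `LeafObj`.

Imports main only.  The statement is the body of `S59.LoSqC.LeafCtx` verbatim.
-/

set_option autoImplicit false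
set_option maxHeartbeats 1600000
set_option synthInstance.maxHeartbeats 400000

noncomputable section

namespace Fermat.Agent.S59.LoSqC.H125

open Fermat.Agent.S36 Fermat.Agent.S36.Eng Fermat.Agent.S36.Mod3

/-- **REG** for all objects (unconditional): `q = 2` helper890, `q` odd helper928 + the cusp
congruence of helper96. -/
theorem leafReg125 : Mod3.LeafReg :=
  have hVT : LeafVT := Mod3.H370.leafVT
  have hTab : LeafTable := Mod3.H370.leafTable
  have hVal : LeafVal := Mod3.H370.leafVal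
  have hSh : LeafSheet := Mod3.H985.leafSheet
  have hQep : LeafQep := Mod3.H27.leafQep_of_vt hVT
  have hNR : LeafNR := Mod3.H657.leafNR_of hVal hTab
  have hCh : LeafChart := Mod3.H189.leafChart_of hVT hTab hVal
  have hInc : LeafInc := Mod3.H153.leafInc hTab hCh hQep hVal hSh hNR
  Mod3.H928.leafReg_of_regIOdd (fun P E M q _ _ _ w hStd V₁' V₂' V₁ V₂ V₃ W' W hO _ =>
    Mod3.H276.leafRegI_of hVal hSh hQep hInc hVT Mod3.H96.leafCuspCong96 P E M q w hStd
      V₁' V₂' V₁ V₂ V₃ W' W hO)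

/-- **CTX (core)**: the three-component context at every system of objects. -/
theorem leafCtxCore125 :
    Mod3.Leaf fun P E M q _ _ _ w V₁' V₂' V₁ V₂ V₃ =>
      TripleCtx (R := A2.RE P E) (E := E) w q (A2.Mod.αE E (M * q) q) (A2.Mod.βE E (M * q) q)
        (Mod3.x3E E M q) (A2.Mod.xE E M q) V₁ V₂ V₃ V₁' V₂' :=
  have hVal : LeafVal := Mod3.H370.leafVal
  have hVT : LeafVT := Mod3.H370.leafVT
  have hTab : LeafTable := Mod3.H370.leafTable
  have hSh : LeafSheet := Mod3.H985.leafSheet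
  have hQep : LeafQep := Mod3.H27.leafQep_of_vt hVT
  have hNor : LeafNormal := Mod3.H756.leafNormal_of hVT hVal hSh hTab
  have hNV : LeafNV := Mod3.H657.leafNV_of hVal hTab
  have hNR : LeafNR := Mod3.H657.leafNR_of hVal hTab
  have hCh : LeafChart := Mod3.H189.leafChart_of hVT hTab hVal
  have hInc : LeafInc := Mod3.H153.leafInc hTab hCh hQep hVal hSh hNR
  have hUn : LeafUniq := Mod3.H153.leafUniq hTab hCh hQep hVal hSh hNR
  fun P E M q _ _ _ w hS V₁' V₂' V₁ V₂ V₃ W' W hO =>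
    tripleCtx_of_parts (Mod3.H439.leafFF E M q hS.q_prime hS.q_not_dvd)
      (hVal P E M q w hS V₁' V₂' V₁ V₂ V₃ W' W hO)
      (hSh P E M q w hS V₁' V₂' V₁ V₂ V₃ W' W hO)
      (hQep P E M q w hS V₁' V₂' V₁ V₂ V₃ W' W hO)
      (hNor P E M q w hS V₁' V₂' V₁ V₂ V₃ W' W hO)
      (hInc P E M q w hS V₁' V₂' V₁ V₂ V₃ W' W hO)
      (leafReg125 P E M q w hS V₁' V₂' V₁ V₂ V₃ W' W hO)
      (Mod3.H439.leafFin E M q hS.q_prime hS.q_not_dvd)
      (hTab P E M q w hS V₁' V₂' V₁ V₂ V₃ W' W hO)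
      (hNV P E M q w hS V₁' V₂' V₁ V₂ V₃ W' W hO)
      (hNR P E M q w hS V₁' V₂' V₁ V₂ V₃ W' W hO)
      (hCh P E M q w hS V₁' V₂' V₁ V₂ V₃ W' W hO)
      (hUn P E M q w hS V₁' V₂' V₁ V₂ V₃ W' W hO)

end Fermat.Agent.S59.LoSqC.H125

end
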