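import Fermat.Agent.S59.LoSqC.Spec
import Fermat.Agent.S59.LoSqC.H125.CtxCore

/-!
# S59 moonshot, cell (C) LO-SQ, leaf CTX (helper125)

`leafCtx125 : S59.LoSqC.LeafCtx` VERBATIM (frozen interface of helper885,
`Fermat/Agent/S59/LoSqC/Spec.lean`), UNCONDITIONAL.
-/

set_option autoImplicit false

namespace Fermat.Agent.S59.LoSqC.H125

/-- **CTX (leaf)**, unconditional. -/
theorem leafCtx125 : Fermat.Agent.S59.LoSqC.LeafCtx := leafCtxCore125

end Fermat.Agent.S59.LoSqC.H125
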